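import Mathlib.NumberTheory.DiophantineApproximation.Basic
import Mathlib.NumberTheory.Real.Irrational

/-!
# Improving Dirichlet's theorem

Two consecutive best approximations `q < q'` satisfy `q' δ q + q δ q' = 1`, where `δ q` is the
distance of `q x` from the integers. Hence `δ q ≤ c / (q' - 1)` with `c < 1` for all large `q'`
exactly when the products `q δ q` stay away from zero.
-/

set_option autoImplicit false

noncomputable section

open Filter

namespace FA.DirichletImprovable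

/-- The distance of `q x` from the integers. -/
def dist₁ (x : ℝ) (q : ℕ) : ℝ := |(q : ℝ) * x - round ((q : ℝ) * x)|

variable {x : ℝ}

theorem dist₁_pos (hx : Irrational x) {q : ℕ} (hq : 0 < q) : 0 < dist₁ x q :=
  abs_pos.2 (((hx.natCast_mul hq.ne').sub_intCast _).ne_zero)

theorem dist₁_le (x : ℝ) (q : ℕ) (p : ℤ) : dist₁ x q ≤ |(q : ℝ) * x - p| := round_le _ p

/-- **Consecutive best approximations.** -/
theorem exists_consecutive (hx : Irrational x) {Q : ℕ} (hQ : 0 < Q) :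
    ∃ q q' : ℕ, 0 < q ∧ q ≤ Q ∧ Q < q' ∧ dist₁ x q' < dist₁ x q ∧
      (∀ r, 0 < r → r < q' → dist₁ x q ≤ dist₁ x r) ∧
      (q' : ℝ) * dist₁ x q + q * dist₁ x q' = 1 := by
  obtain ⟨q, hq, hmin⟩ := Finset.exists_min_image (Finset.Icc 1 Q) (dist₁ x)
    ⟨1, Finset.mem_Icc.2 ⟨le_rfl, hQ⟩⟩
  rw [Finset.mem_Icc] at hq
  have hq0 : 0 < q := hq.1
  have hqpos := dist₁_pos hx hq0
  have hex : ∃ r : ℕ, 0 < r ∧ dist₁ x r < dist₁ x q := by
    obtain ⟨n, hn⟩ := exists_nat_gt (1 / dist₁ x q)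
    have hn0 : 0 < n := Nat.cast_pos.1 (lt_trans (by positivity) hn)
    obtain ⟨k, hk, -, hkle⟩ := Real.exists_nat_abs_mul_sub_round_le x hn0
    refine ⟨k, hk, lt_of_le_of_lt hkle ?_⟩
    rw [div_lt_iff₀ (by positivity)]
    rw [div_lt_iff₀ hqpos] at hn
    nlinarith
  set q' := Nat.find hex
  obtain ⟨hq'0, hlt⟩ := Nat.find_spec hex
  have hbest : ∀ r, 0 < r → r < q' → dist₁ x q ≤ dist₁ x r := fun r hr hrq =>
    not_lt.1 fun h => Nat.find_min hex hrq ⟨hr, h⟩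
  have hQq' : Q < q' := not_le.1 fun h =>
    absurd hlt (not_lt.2 (hmin _ (Finset.mem_Icc.2 ⟨hq'0, h⟩)))
  refine ⟨q, q', hq0, hq.2, hQq', hlt, hbest, ?_⟩
  have hqq' : (q : ℝ) < q' := by exact_mod_cast hq.2.trans_lt hQq'
  have hq0R : (0 : ℝ) < q := Nat.cast_pos.2 hq0
  have hsmall : (q' : ℝ) * dist₁ x q ≤ 1 := by
    obtain ⟨n, hn⟩ : ∃ n, q' = n + 1 := ⟨q' - 1, by omega⟩
    obtain ⟨k, hk, hkn, hkle⟩ := Real.exists_nat_abs_mul_sub_round_le x (show 0 < n by omega)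
    have h := (hbest k hk (by omega)).trans hkle
    rw [le_div_iff₀ (by positivity)] at h
    rw [hn]
    push_cast
    linarith
  set a := (q : ℝ) * x - round ((q : ℝ) * x) with ha
  set b := (q' : ℝ) * x - round ((q' : ℝ) * x) with hb
  replace hsmall : (q' : ℝ) * |a| ≤ 1 := hsmall
  replace hlt : |b| < |a| := hlt
  show (q' : ℝ) * |a| + q * |b| = 1
  set D : ℤ := (q : ℤ) * round ((q' : ℝ) * x) - (q' : ℤ) * round ((q : ℝ) * x) with hD
  have hDab : (D : ℝ) = q' * a - q * b := by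
    rw [hD, ha, hb]
    push_cast
    ring
  have hlt' : (q : ℝ) * |b| < q' * |a| := mul_lt_mul'' hqq' hlt hq0R.le (abs_nonneg b)
  have hD0 : D ≠ 0 := fun h0 => by
    have he : (q' : ℝ) * a = q * b := by
      rw [h0, Int.cast_zero] at hDab
      linarith
    have := congrArg abs he
    rw [abs_mul, abs_mul, Nat.abs_cast, Nat.abs_cast] at this
    linarith
  have hD1 : (1 : ℝ) ≤ |(D : ℝ)| := by exact_mod_cast Int.one_le_abs hD0
  have hup : |(D : ℝ)| < 2 := by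
    rw [hDab]
    refine (abs_sub _ _).trans_lt ?_
    rw [abs_mul, abs_mul, Nat.abs_cast, Nat.abs_cast]
    linarith
  have hD2 : |(D : ℝ)| = 1 := by
    have h2 : |D| < 2 := by exact_mod_cast hup
    have h1 : |D| = 1 := by have := Int.one_le_abs hD0; omega
    exact_mod_cast h1
  have hqb : 0 ≤ (q : ℝ) * |b| := by positivity
  have hqa : 0 ≤ (q' : ℝ) * |a| := by positivity
  rcases le_or_gt 0 a with h | h <;> rcases le_or_gt 0 b with h' | h' <;>
    rcases abs_eq (by norm_num : (0 : ℝ) ≤ 1) |>.1 hD2 with e | e <;>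
    simp only [hDab] at e <;>
    simp only [abs_of_nonneg, abs_of_neg, h, h'] at * <;> nlinarith

/-- Dirichlet's theorem is improvable at `x`. -/
def Improvable (x : ℝ) : Prop :=
  ∃ c : ℝ, c < 1 ∧ ∀ᶠ Q : ℕ in atTop, ∃ q : ℕ, 0 < q ∧ q ≤ Q ∧ ∃ p : ℤ, |(q : ℝ) * x - p| ≤ c / Q

/-- **Davenport and Schmidt**: badly approximable numbers are improvable. -/
theorem improvable_of_bad (hx : Irrational x) {C : ℝ} (hC : 0 < C)
    (h : ∀ q : ℕ, 0 < q → C / q ≤ dist₁ x q) : Improvable x := by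
  refine ⟨1 - C ^ 2, by nlinarith, eventually_atTop.2 ⟨1, fun Q hQ => ?_⟩⟩
  by_contra hno
  simp only [not_exists, not_and, not_le] at hno
  obtain ⟨q, q', hq, hqQ, hQq', -, -, heq⟩ := exists_consecutive hx hQ
  have hbig : 1 - C ^ 2 < (Q : ℝ) * dist₁ x q := by
    have := hno q hq hqQ (round ((q : ℝ) * x))
    rw [div_lt_iff₀ (Nat.cast_pos.2 hQ), mul_comm] at this
    exact this
  have hq' : (0 : ℝ) < q' := Nat.cast_pos.2 (by omega)
  have hq0 : (0 : ℝ) < q := Nat.cast_pos.2 hq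
  have h1 := h q hq
  have h2 := h q' (by omega)
  rw [div_le_iff₀ hq0] at h1
  rw [div_le_iff₀ hq'] at h2
  have hle : (Q : ℝ) * dist₁ x q ≤ q' * dist₁ x q :=
    mul_le_mul_of_nonneg_right (Nat.cast_le.2 hQq'.le) (abs_nonneg _)
  have hqd : (q : ℝ) * dist₁ x q' < C ^ 2 := by linarith
  have hqd' : (q' : ℝ) * dist₁ x q ≤ 1 := by
    have : 0 ≤ (q : ℝ) * dist₁ x q' := mul_nonneg hq0.le (abs_nonneg _)
    linarith
  have hkey : (q' : ℝ) * C ≤ q := by
    calc (q' : ℝ) * C ≤ q' * (dist₁ x q * q) := mul_le_mul_of_nonneg_left h1 hq'.le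
      _ = (q' * dist₁ x q) * q := by ring
      _ ≤ 1 * q := mul_le_mul_of_nonneg_right hqd' hq0.le
      _ = _ := one_mul _
  nlinarith [mul_le_mul_of_nonneg_left h2 hq0.le, mul_le_mul_of_nonneg_right hkey hC.le]

/-- **Davenport and Schmidt**: improvable numbers are badly approximable. -/
theorem bad_of_improvable (hx : Irrational x) (h : Improvable x) :
    ∃ C : ℝ, 0 < C ∧ ∀ q : ℕ, 0 < q → C / q ≤ dist₁ x q := by
  obtain ⟨c, hc, hev⟩ := h
  obtain ⟨Q₀, hQ₀⟩ := eventually_atTop.1 hev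
  obtain ⟨N₁, hN₁⟩ := exists_nat_gt (2 / (1 - c))
  set N := max (Q₀ + 1) (max N₁ 2) with hN
  have hlarge : ∀ r, 0 < r → N ≤ r → (1 - c) / 2 ≤ (r : ℝ) * dist₁ x r := fun r hr hrN => by
    obtain ⟨q, q', hq, hqr, hrq', hlt, hbest, heq⟩ := exists_consecutive hx hr
    obtain ⟨k, hk, hkq, p, hp⟩ := hQ₀ (q' - 1) (by omega)
    have hd : dist₁ x q ≤ c / ((q' - 1 : ℕ) : ℝ) :=
      ((hbest k hk (by omega)).trans (dist₁_le x k p)).trans hp
    have hNq : (N₁ : ℝ) + 1 ≤ q' := by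
      have hle : N₁ ≤ r := (le_trans (le_max_left _ _) (le_max_right _ _)).trans hrN
      exact_mod_cast Nat.succ_le_of_lt (hle.trans_lt hrq')
    have hNc : 2 < (N₁ : ℝ) * (1 - c) := by
      rwa [div_lt_iff₀ (by linarith)] at hN₁
    have hq'1 : (1 : ℝ) < q' := by exact_mod_cast (show 1 < q' by omega)
    rw [Nat.cast_sub (show 1 ≤ q' by omega), Nat.cast_one, le_div_iff₀ (by linarith)] at hd
    have hdpos := dist₁_pos hx hq
    have hsum : (q' : ℝ) * dist₁ x q ≤ (1 + c) / 2 := by nlinarith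
    have hqd : (q : ℝ) * dist₁ x q' ≤ (r : ℝ) * dist₁ x r := by
      refine mul_le_mul (Nat.cast_le.2 hqr) ?_ (abs_nonneg _) r.cast_nonneg
      exact hlt.le.trans (hbest r hr hrq')
    linarith
  obtain ⟨m, hm, hmin⟩ := Finset.exists_min_image (Finset.Icc 1 N)
    (fun r : ℕ => (r : ℝ) * dist₁ x r) ⟨1, Finset.mem_Icc.2 ⟨le_rfl, by omega⟩⟩
  rw [Finset.mem_Icc] at hm
  refine ⟨min ((1 - c) / 2) ((m : ℝ) * dist₁ x m), lt_min (by linarith)
    (mul_pos (Nat.cast_pos.2 hm.1) (dist₁_pos hx hm.1)), fun r hr => ?_⟩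
  rw [div_le_iff₀ (Nat.cast_pos.2 hr), mul_comm (dist₁ x r)]
  rcases le_total N r with hNr | hNr
  · exact (min_le_left _ _).trans (hlarge r hr hNr)
  · exact (min_le_right _ _).trans (hmin r (Finset.mem_Icc.2 ⟨hr, hNr⟩))

theorem bad_iff_dist₁ (x : ℝ) :
    (∃ C : ℝ, 0 < C ∧ ∀ (p : ℤ) (q : ℕ), 0 < q → C / (q : ℝ) ^ 2 ≤ |x - p / q|) ↔
      ∃ C : ℝ, 0 < C ∧ ∀ q : ℕ, 0 < q → C / q ≤ dist₁ x q := by
  have e : ∀ (q : ℕ) (p : ℤ), 0 < q → |(q : ℝ) * x - p| = q * |x - p / q| := fun q p hq => by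
    have hq' : (0 : ℝ) < q := Nat.cast_pos.2 hq
    rw [← abs_of_pos hq', ← abs_mul, abs_of_pos hq', mul_sub, mul_div_cancel₀ _ hq'.ne']
  refine exists_congr fun C => and_congr_right fun _ => ⟨fun h q hq => ?_, fun h p q hq => ?_⟩
  · have hq' : (0 : ℝ) < q := Nat.cast_pos.2 hq
    rw [dist₁, e q _ hq]
    refine le_of_eq_of_le ?_ (mul_le_mul_of_nonneg_left (h (round ((q : ℝ) * x)) q hq) hq'.le)
    field_simp
  · have hq' : (0 : ℝ) < q := Nat.cast_pos.2 hq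
    have h1 := (h q hq).trans (dist₁_le x q p)
    rw [e q p hq] at h1
    rw [div_le_iff₀ hq'] at h1
    rw [div_le_iff₀ (by positivity)]
    linarith

end FA.DirichletImprovable
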